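/-
S37lib / Glue / Rigid  (lead)

**Abstract rigidity lemma** for block (C2) of S37.  `D : RedDatum A F Fk` with orthonormal bases, both
sides curves of the same genus `g`, residue field infinite.  Let `Φ : Div F →+ Div Fk` be additive and
zero on principal divisors.  Assume every place `Q` of `Fk` has a finite "bad set" `B Q ∋ Q` such that
`r P' ∉ B (r P)` forces `supp Φ(P')` and `supp Φ(P)` to be disjoint, and that some place of `F` reduces
outside `B Q`.  Then `Φ = 0`.

Proof: for a place `P`, `Q := r P`, `Q₀ := r P₀ ∉ B Q`, pick `η ∈ L_k(n Q₀ - Q)` outside the finitely many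
proper subspaces `L_k(n Q₀ - Q - Q')`, `Q' ∈ B Q`, lift it to `y ∈ L(n P₀ - P) ∩ O` (`RRlat.exists_lift`);
conservation gives `div y = P + R` with `R` supported on places reducing outside `B Q`; then
`0 = Φ (div y) = Φ P + Φ R` with disjoint supports.
-/
import Fermat.Agent.S18lib.RRlat.Lattice
import Fermat.Agent.S18lib.Setup.DivLemmas

set_option autoImplicit false

noncomputable section

namespace Fermat.Agent.S37lib.Glue

open AlgebraicCurve Fermat.Agent.S18lib

/-- value of `mapDomain` as a sum over the fibre -/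
theorem mapDomain_apply_eq_sum {α β : Type*} [DecidableEq β] (r : α → β) (G : α →₀ ℤ) (b : β) :
    Finsupp.mapDomain r G b = ∑ a ∈ G.support.filter (fun a => r a = b), G a := by
  classical
  rw [Finsupp.mapDomain, Finsupp.sum_apply, Finsupp.sum, Finset.sum_filter]
  refine Finset.sum_congr rfl fun a _ => ?_
  rw [Finsupp.single_apply]

/-- if all terms over the fibre of `b` are `≥ 0` and the total is `0`, all terms vanish -/
theorem eq_zero_of_mapDomain_eq_zero {α β : Type*} (r : α → β) (G : α →₀ ℤ) (b : β)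
    (hnn : ∀ a, r a = b → 0 ≤ G a) (h0 : Finsupp.mapDomain r G b = 0) (a : α) (ha : r a = b) :
    G a = 0 := by
  classical
  rw [mapDomain_apply_eq_sum] at h0
  by_cases hs : a ∈ G.support
  · have := (Finset.sum_eq_zero_iff_of_nonneg (fun x hx => hnn x (Finset.mem_filter.mp hx).2)).mp h0
      a (Finset.mem_filter.mpr ⟨hs, ha⟩)
    exact this
  · exact Finsupp.notMem_support_iff.mp hs

/-- if all terms over the fibre of `b` are `≥ 0`, one of them is `≥ 1` and the total is `1`, that term
is `1` and all the others vanish -/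
theorem eq_of_mapDomain_eq_one {α β : Type*} (r : α → β) (G : α →₀ ℤ) (b : β)
    (hnn : ∀ a, r a = b → 0 ≤ G a) (a₀ : α) (ha₀ : r a₀ = b) (h1 : 1 ≤ G a₀)
    (htot : Finsupp.mapDomain r G b = 1) :
    G a₀ = 1 ∧ ∀ a, r a = b → a ≠ a₀ → G a = 0 := by
  classical
  set G' : α →₀ ℤ := G - Finsupp.single a₀ 1 with hG'
  have hG'a : ∀ a, G' a = G a - if a₀ = a then 1 else 0 := by
    intro a
    rw [hG', Finsupp.sub_apply, Finsupp.single_apply]
  have hnn' : ∀ a, r a = b → 0 ≤ G' a := by
    intro a ha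
    rw [hG'a]
    split_ifs with h
    · subst h; linarith
    · have := hnn a ha; linarith
  have h0 : Finsupp.mapDomain r G' b = 0 := by
    rw [hG', Finsupp.mapDomain_sub, Finsupp.sub_apply, htot, Finsupp.mapDomain_single,
      Finsupp.single_apply, if_pos ha₀, sub_self]
  have hz := eq_zero_of_mapDomain_eq_zero r G' b hnn' h0
  refine ⟨?_, fun a ha hne => ?_⟩
  · have := hz a₀ ha₀
    rw [hG'a, if_pos rfl] at this
    linarith
  · have := hz a ha
    rw [hG'a, if_neg (Ne.symm hne)] at this
    linarith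

section Rigidity

variable {L : Type*} [Field L] {A : ValuationSubring L}
variable {F : Type*} [Field F] [Algebra L F]
variable {Fk : Type*} [Field Fk] [Algebra (IsLocalRing.ResidueField A) Fk]

local notation "kA" => IsLocalRing.ResidueField A

/-- **Abstract rigidity lemma.** -/
theorem rigidity (D : RedDatum A F Fk) (hD : D.HasOrthonormalBases) {g : ℕ}
    (hF : IsCurveOfGenus L F g) (hFk : IsCurveOfGenus kA Fk g) [Infinite kA]
    (Φ : Divisor L F →+ Divisor kA Fk)
    (hΦ : ∀ (f : F), f ≠ 0 → ∀ Df : Divisor L F, (∀ P, Df P = P.ord f) → Φ Df = 0)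
    (B : Place kA Fk → Finset (Place kA Fk)) (hB : ∀ Q, Q ∈ B Q)
    (hdisj : ∀ P P' : Place L F, D.r P' ∉ B (D.r P) →
      Disjoint (Φ (Finsupp.single P' 1)).support (Φ (Finsupp.single P 1)).support)
    (hex : ∀ Q : Place kA Fk, ∃ P₀ : Place L F, D.r P₀ ∉ B Q) :
    Φ = 0 := by
  classical
  have := hF.hasPrincipalDivisors
  have := hFk.hasPrincipalDivisors
  -- it suffices to kill single places
  suffices hsingle : ∀ P : Place L F, Φ (Finsupp.single P 1) = 0 by
    apply AddMonoidHom.ext
    intro E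
    induction E using Finsupp.induction with
    | zero => simp
    | single_add P n E _ _ ih =>
      rw [map_add, ih, AddMonoidHom.zero_apply, add_zero]
      have : Finsupp.single P n = n • Finsupp.single P (1 : ℤ) := by
        rw [Finsupp.smul_single, smul_eq_mul, mul_one]
      rw [this, map_zsmul, hsingle, smul_zero]
      rfl
  intro P
  set Q := D.r P with hQ
  obtain ⟨P₀, hP₀⟩ := hex Q
  set Q₀ := D.r P₀ with hQ₀
  have hQ₀Q : Q₀ ≠ Q := fun h => hP₀ (h ▸ hB Q)
  have hP₀P : P₀ ≠ P := fun h => hQ₀Q (by rw [hQ₀, hQ, h])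
  set n : ℤ := 2 * g + 2 with hn
  set E : Divisor L F := Finsupp.single P₀ n - Finsupp.single P 1 with hE
  have hEr : Finsupp.mapDomain D.r E = Finsupp.single Q₀ n - Finsupp.single Q 1 := by
    rw [hE, Finsupp.mapDomain_sub, Finsupp.mapDomain_single, Finsupp.mapDomain_single]
  set Ek : Divisor kA Fk := Finsupp.single Q₀ n - Finsupp.single Q 1 with hEk
  have hdegE : Divisor.degree E = 2 * g + 1 := by
    rw [hE, map_sub, Divisor.degree_single, Divisor.degree_single, hF.deg_eq_one, hF.deg_eq_one, hn]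
    push_cast
    ring
  have hdegEk : Divisor.degree Ek = 2 * g + 1 := by
    rw [hEk, map_sub, Divisor.degree_single, Divisor.degree_single, hFk.deg_eq_one,
      hFk.deg_eq_one, hn]
    push_cast
    ring
  -- the proper subspaces
  have := hFk.finiteDimensional Ek
  let V := riemannRochSpace Ek
  let W : (B Q) → Submodule kA V := fun Q' =>
    (riemannRochSpace (Ek - Finsupp.single (Q' : Place kA Fk) 1)).comap V.subtype
  have hWne : ∀ Q' : B Q, W Q' ≠ ⊤ := by
    intro Q' htop
    have hle : riemannRochSpace Ek ≤ riemannRochSpace (Ek - Finsupp.single (Q' : Place kA Fk) 1) := by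
      intro x hx
      have : (⟨x, hx⟩ : V) ∈ W Q' := by rw [htop]; trivial
      exact this
    have hge : riemannRochSpace (Ek - Finsupp.single (Q' : Place kA Fk) 1) ≤ riemannRochSpace Ek := by
      apply riemannRochSpace_mono
      intro v
      rw [Finsupp.sub_apply, Finsupp.single_apply]
      split_ifs <;> linarith
    have heq := le_antisymm hle hge
    have h1 := hFk.riemann_eq Ek (by rw [hdegEk]; linarith)
    have h2 := hFk.riemann_eq (Ek - Finsupp.single (Q' : Place kA Fk) 1) (by
      rw [map_sub, hdegEk, Divisor.degree_single, hFk.deg_eq_one]; push_cast; linarith)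
    rw [heq, h2, map_sub, hdegEk, Divisor.degree_single, hFk.deg_eq_one] at h1
    push_cast at h1
    linarith
  obtain ⟨η, hη⟩ := Submodule.exists_forall_notMem_of_forall_ne_top W hWne
  have hηV : (η : Fk) ∈ riemannRochSpace Ek := η.2
  have hηW : ∀ Q' ∈ B Q, (η : Fk) ∉ riemannRochSpace (Ek - Finsupp.single Q' 1) :=
    fun Q' hQ' h => hη ⟨Q', hQ'⟩ h
  have hη0 : (η : Fk) ≠ 0 := by
    intro h0
    apply hηW Q (hB Q)
    rw [h0]
    exact Submodule.zero_mem _
  -- orders of `η` on the bad set
  have hord : ∀ Q' ∈ B Q, Q'.ord (η : Fk) = -Ek Q' := by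
    intro Q' hQ'
    have h1 := (mem_riemannRochSpace_iff.mp hηV) Q'
    have h2 := hηW Q' hQ'
    rw [mem_riemannRochSpace_iff] at h2
    push Not at h2
    obtain ⟨v, hv0, hv⟩ := h2
    rcases (mem_riemannRochSpace_iff.mp hηV) v with h | h
    · exact absurd h hη0
    rw [Finsupp.sub_apply, Finsupp.single_apply] at hv
    by_cases hvQ : Q' = v
    · subst hvQ
      rw [if_pos rfl] at hv
      rcases h1 with h1 | h1
      · exact absurd h1 hη0
      linarith
    · rw [if_neg hvQ] at hv
      linarith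
  have hordQ : Q.ord (η : Fk) = 1 := by
    rw [hord Q (hB Q), hEk, Finsupp.sub_apply, Finsupp.single_apply, Finsupp.single_apply,
      if_neg hQ₀Q, if_pos rfl]
    norm_num
  have hordQ' : ∀ Q' ∈ B Q, Q' ≠ Q → Q'.ord (η : Fk) = 0 := by
    intro Q' hQ' hne
    have hne0 : Q₀ ≠ Q' := fun h => hP₀ (h ▸ hQ')
    rw [hord Q' hQ', hEk, Finsupp.sub_apply, Finsupp.single_apply, Finsupp.single_apply,
      if_neg hne0, if_neg (Ne.symm hne)]
    norm_num
  -- lift
  obtain ⟨y, hyM, hyη⟩ := RRlat.exists_lift D hD hF hFk E (by rw [hdegE]; linarith) (η : Fk)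
    (by rw [hEr]; exact hηV)
  obtain ⟨hyE, hyO⟩ := hyM
  have hy0 : y ≠ 0 := by
    rintro rfl
    apply hη0
    rw [← hyη, D.redF_of_mem hyO]
    exact map_zero D.red
  have hred : D.red ⟨y, hyO⟩ = (η : Fk) := by rw [← hyη, D.redF_of_mem hyO]
  obtain ⟨Dy, hDy, -⟩ := HasPrincipalDivisors.exists_divisor (K := L) y hy0
  have hcons : ∀ Q', Finsupp.mapDomain D.r Dy Q' = Q'.ord (η : Fk) := by
    intro Q'
    rw [← hred]
    exact D.mapDomain_div ⟨y, hyO⟩ (by rw [hred]; exact hη0) Dy hDy Q'
  -- orders of `y`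
  have hyord : ∀ P' : Place L F, -E P' ≤ Dy P' := by
    intro P'
    rcases (mem_riemannRochSpace_iff.mp hyE) P' with h | h
    · exact absurd h hy0
    · rw [hDy]; exact h
  have hnn : ∀ Q' ∈ B Q, ∀ P', D.r P' = Q' → 0 ≤ Dy P' := by
    intro Q' hQ' P' hP'
    have h := hyord P'
    have hne : P₀ ≠ P' := by
      rintro rfl
      apply hP₀
      rw [hQ₀, hP']
      exact hQ'
    rw [hE, Finsupp.sub_apply, Finsupp.single_apply, Finsupp.single_apply, if_neg hne] at h
    split_ifs at h <;> linarith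
  have hP1 : 1 ≤ Dy P := by
    have h := hyord P
    rw [hE, Finsupp.sub_apply, Finsupp.single_apply, Finsupp.single_apply, if_neg hP₀P,
      if_pos rfl] at h
    linarith
  obtain ⟨hDyP, hDyQ⟩ := eq_of_mapDomain_eq_one D.r Dy Q (hnn Q (hB Q)) P rfl hP1
    (by rw [hcons, hordQ])
  have hDyB : ∀ P', D.r P' ∈ B Q → P' ≠ P → Dy P' = 0 := by
    intro P' hP' hne
    by_cases hPQ : D.r P' = Q
    · exact hDyQ P' hPQ hne
    · exact eq_zero_of_mapDomain_eq_zero D.r Dy (D.r P') (hnn _ hP')
        (by rw [hcons, hordQ' _ hP' hPQ]) P' rfl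
  -- decompose
  set R : Divisor L F := Dy - Finsupp.single P 1 with hR
  have hRsupp : ∀ P' ∈ R.support, D.r P' ∉ B Q := by
    intro P' hP' hmem
    rw [Finsupp.mem_support_iff, hR, Finsupp.sub_apply, Finsupp.single_apply] at hP'
    by_cases hne : P' = P
    · subst hne
      rw [if_pos rfl, hDyP] at hP'
      exact hP' (sub_self _)
    · rw [if_neg (Ne.symm hne), hDyB P' hmem hne] at hP'
      exact hP' (sub_self _)
  have hΦDy : Φ Dy = 0 := hΦ y hy0 Dy hDy
  have hΦP : Φ (Finsupp.single P 1) = -Φ R := by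
    have : Dy = Finsupp.single P 1 + R := by rw [hR]; abel
    rw [this, map_add] at hΦDy
    exact eq_neg_of_add_eq_zero_left hΦDy
  -- support of `Φ R`
  have hsuppR : (Φ R).support ⊆ R.support.biUnion fun P' => (Φ (Finsupp.single P' 1)).support := by
    have hRsum : R = ∑ P' ∈ R.support, R P' • Finsupp.single P' (1 : ℤ) := by
      conv_lhs => rw [← Finsupp.sum_single R]
      rw [Finsupp.sum]
      refine Finset.sum_congr rfl fun P' _ => ?_
      rw [Finsupp.smul_single, smul_eq_mul, mul_one]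
    intro Q' hQ'
    rw [hRsum, map_sum, Finsupp.mem_support_iff, Finsupp.finsetSum_apply] at hQ'
    obtain ⟨P', hP', hne⟩ := Finset.exists_ne_zero_of_sum_ne_zero hQ'
    rw [Finset.mem_biUnion]
    refine ⟨P', hP', ?_⟩
    rw [Finsupp.mem_support_iff]
    intro h0
    apply hne
    rw [map_zsmul, Finsupp.smul_apply, h0, smul_zero]
  -- conclude
  by_contra hne
  obtain ⟨Q', hQ'⟩ : ∃ Q', Q' ∈ (Φ (Finsupp.single P 1)).support := by
    by_contra hemp
    push Not at hemp
    apply hne
    ext Q'
    exact Finsupp.notMem_support_iff.mp (hemp Q')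
  have hQ'R : Q' ∈ (Φ R).support := by
    rw [hΦP, Finsupp.support_neg] at hQ'
    exact hQ'
  obtain ⟨P', hP', hQ'P'⟩ := Finset.mem_biUnion.mp (hsuppR hQ'R)
  exact Finset.disjoint_left.mp (hdisj P P' (hRsupp P' hP')) hQ'P' hQ'

end Rigidity

end Fermat.Agent.S37lib.Glue
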