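/-
S37lib / Glue / Inputs  (lead)

The record `Glue.Inputs N ℓ hℓ A` (the three inputs of S37 at a place `A` over `ℓ ∤ N`) from
* `B3.reductionInputsModL` (helper9/helper1/helper2/helper3: unconditional good reduction),
* `C0.hinert`, `C0.hfrob` (helper7: equivariance of the reduction map, `Fr := C0.Fr A N hA`),
* `ES.hES_of_support` (helper6: Eichler–Shimura on `Pic⁰` from the support control data).
The support control data (C2.2) enters as the hypothesis `SupportData`.
-/
import Fermat.Agent.S37lib.Glue.Assemble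
import Fermat.Agent.S37lib.B3.Inst
import Fermat.Agent.S37lib.C0.Wire
import Fermat.Agent.S37lib.ES.Final

set_option autoImplicit false

noncomputable section

namespace Fermat.Agent.S37lib.Glue

open AlgebraicCurve ModularCurve Fermat.Agent.S18lib

local notation "Qb" => AlgebraicClosure ℚ

/-- the output of (C2.2): support control for the Eichler–Shimura defect -/
def SupportData (N : ℕ) [NeZero N] (A : ValuationSubring Qb) {ℓ : ℕ} [Fact ℓ.Prime]
    (hℓN : ¬ ℓ ∣ N) (hA : A.LiesOverPrime ℓ) (h : ReductionInputsModL A N) : Prop :=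
  ∃ B : Place (kRes A) (FRes A N) → Finset (Place (kRes A) (FRes A N)),
    (∀ Q, Q ∈ B Q) ∧
    (∀ P P' : Place Qb (FBar N),
      placeReductionModL h P' ∉ B (placeReductionModL h P) →
        Disjoint (ES.frobDefect N A hℓN hA h (Finsupp.single P' 1)).support
          (ES.frobDefect N A hℓN hA h (Finsupp.single P 1)).support) ∧
    (∀ Q : Place (kRes A) (FRes A N), ∃ P₀ : Place Qb (FBar N),
      placeReductionModL h P₀ ∉ B Q)

/-- the inputs of S37 at `(ℓ, A)` from the support control data -/
theorem inputs_of_supportData (N : ℕ) [NeZero N] (ℓ : ℕ) (hℓ : ℓ.Prime)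
    (A : ValuationSubring Qb) (hℓN : ¬ ℓ ∣ N) (hA : A.LiesOverPrime ℓ)
    (hS : haveI : Fact ℓ.Prime := ⟨hℓ⟩
      SupportData N A hℓN hA (B3.reductionInputsModL N A hℓN hA)) :
    Inputs N ℓ hℓ A := by
  haveI : Fact ℓ.Prime := ⟨hℓ⟩
  obtain ⟨B, hB, hdisj, hex⟩ := hS
  exact
    { red := B3.reductionInputsModL N A hℓN hA
      exists_frob := ⟨C0.Fr A N hA, C0.hinert N A hℓN hA, C0.hfrob N A hℓN hA,
        ES.hES_of_support N A hℓ hℓN hA (B3.reductionInputsModL N A hℓN hA) B hB hdisj hex⟩ }

end Fermat.Agent.S37lib.Glue
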