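/-
S37lib / Glue / Formal  (lead)

Formal part of S37 (`ModularCurve.SpecializationExists`): from a homomorphism `sp0 : J →+ Jk` which is
(i) injective on `p`-power torsion, (ii) invariant under inertia, (iii) intertwines every Frobenius
element with an endomorphism `Fr` of `Jk`, and (iv) satisfies the Eichler–Shimura relation
`Fr (sp0 (T_ℓ w)) = Fr (Fr (sp0 w)) + ℓ • sp0 w`, we build the data `(J', sp, F)` required by
`SpecializationExists`.  No quotient and no choice of a Frobenius element is needed: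
`J' ⊆ (HeckeAlg →+ Jk)` (Hecke algebra acting by translation of the argument) is the submodule cut out
by the Eichler–Shimura relation, `sp x = (T ↦ sp0 (T • x))`, `F φ = Fr ∘ φ`.
-/
import Fermat.Prelude.Def_HeckeGalois_EichlerShimura

set_option autoImplicit false

noncomputable section

namespace Fermat.Agent.S37lib.Glue

open ModularCurve

/-- additive maps `HeckeAlg →+ Jk`; `HeckeAlg` acts by translation of the argument -/
def Trans (Jk : Type) [AddCommGroup Jk] : Type := HeckeAlg →+ Jk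

namespace Trans

variable {Jk : Type} [AddCommGroup Jk]

instance instAddCommGroupTrans : AddCommGroup (Trans Jk) :=
  inferInstanceAs (AddCommGroup (HeckeAlg →+ Jk))

/-- the underlying additive map -/
def toHom (φ : Trans Jk) : HeckeAlg →+ Jk := φ

/-- build an element of `Trans Jk` -/
def ofHom (φ : HeckeAlg →+ Jk) : Trans Jk := φ

@[simp] theorem toHom_ofHom (φ : HeckeAlg →+ Jk) : toHom (ofHom φ) = φ := rfl

@[ext] theorem ext {φ ψ : Trans Jk} (h : ∀ T, φ.toHom T = ψ.toHom T) : φ = ψ :=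
  AddMonoidHom.ext h

@[simp] theorem toHom_add (φ ψ : Trans Jk) (T : HeckeAlg) :
    (φ + ψ).toHom T = φ.toHom T + ψ.toHom T := rfl

@[simp] theorem toHom_zero (T : HeckeAlg) : (0 : Trans Jk).toHom T = 0 := rfl

@[simp] theorem toHom_neg (φ : Trans Jk) (T : HeckeAlg) : (-φ).toHom T = -φ.toHom T := rfl

@[simp] theorem toHom_sub (φ ψ : Trans Jk) (T : HeckeAlg) :
    (φ - ψ).toHom T = φ.toHom T - ψ.toHom T := rfl

@[simp] theorem toHom_nsmul (n : ℕ) (φ : Trans Jk) (T : HeckeAlg) :
    (n • φ).toHom T = n • φ.toHom T := rfl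

/-- translation action -/
instance instSMulTrans : SMul HeckeAlg (Trans Jk) where
  smul T φ := ofHom ((toHom φ).comp (AddMonoidHom.mulRight T))

@[simp] theorem toHom_smul (T : HeckeAlg) (φ : Trans Jk) (T' : HeckeAlg) :
    (T • φ).toHom T' = φ.toHom (T' * T) := rfl

instance instModuleTrans : Module HeckeAlg (Trans Jk) where
  one_smul φ := by ext T; simp
  mul_smul T₁ T₂ φ := by ext T; simp [mul_assoc, mul_comm T₁ T₂]
  smul_zero T := by ext T'; simp
  smul_add T φ ψ := by ext T'; simp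
  add_smul T₁ T₂ φ := by ext T'; simp [mul_add]
  zero_smul φ := by ext T'; simp

end Trans

section Construction

variable {Jk : Type} [AddCommGroup Jk] (Fr : Jk →+ Jk) (t : HeckeAlg) (ℓ : ℕ)

/-- the additive map measuring the failure of the Eichler–Shimura relation at `T` -/
def esDefect (T : HeckeAlg) : Trans Jk →+ Jk where
  toFun φ := Fr (Fr (φ.toHom T)) - Fr (φ.toHom (T * t)) + ℓ • φ.toHom T
  map_zero' := by simp
  map_add' φ ψ := by
    simp only [Trans.toHom_add, map_add, smul_add]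
    abel

@[simp] theorem esDefect_apply (T : HeckeAlg) (φ : Trans Jk) :
    esDefect Fr t ℓ T φ = Fr (Fr (φ.toHom T)) - Fr (φ.toHom (T * t)) + ℓ • φ.toHom T := rfl

/-- the submodule of `Trans Jk` cut out by the Eichler–Shimura relation -/
def esSubmodule : Submodule HeckeAlg (Trans Jk) where
  carrier := {φ | ∀ T : HeckeAlg, esDefect Fr t ℓ T φ = 0}
  zero_mem' := by intro T; exact map_zero _
  add_mem' := by
    intro φ ψ hφ hψ T
    rw [map_add, hφ T, hψ T, add_zero]
  smul_mem' := by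
    intro T' φ hφ T
    have h := hφ (T * T')
    rw [esDefect_apply] at h ⊢
    simp only [Trans.toHom_smul]
    rw [show T * t * T' = T * T' * t by ring]
    exact h

theorem mem_esSubmodule {φ : Trans Jk} :
    φ ∈ esSubmodule Fr t ℓ ↔
      ∀ T : HeckeAlg, Fr (Fr (φ.toHom T)) - Fr (φ.toHom (T * t)) + ℓ • φ.toHom T = 0 :=
  Iff.rfl

/-- `φ ↦ Fr ∘ φ` on `Trans Jk` -/
def transFrob : Trans Jk →+ Trans Jk where
  toFun φ := Trans.ofHom (Fr.comp φ.toHom)
  map_zero' := by
    apply Trans.ext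
    intro T
    show Fr ((0 : Trans Jk).toHom T) = 0
    rw [Trans.toHom_zero, map_zero]
  map_add' φ ψ := by
    apply Trans.ext
    intro T
    show Fr ((φ + ψ).toHom T) = Fr (φ.toHom T) + Fr (ψ.toHom T)
    rw [Trans.toHom_add, map_add]

@[simp] theorem transFrob_apply (φ : Trans Jk) (T : HeckeAlg) :
    (transFrob Fr φ).toHom T = Fr (φ.toHom T) := rfl

theorem transFrob_mem {φ : Trans Jk} (hφ : φ ∈ esSubmodule Fr t ℓ) :
    transFrob Fr φ ∈ esSubmodule Fr t ℓ := by
  intro T
  have h := hφ T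
  rw [esDefect_apply] at h ⊢
  simp only [transFrob_apply]
  rw [← map_sub, ← map_nsmul, ← map_add, h, map_zero]

/-- `F φ = Fr ∘ φ` on the Eichler–Shimura submodule -/
def esFrob : esSubmodule Fr t ℓ →+ esSubmodule Fr t ℓ where
  toFun φ := ⟨transFrob Fr φ.1, transFrob_mem Fr t ℓ φ.2⟩
  map_zero' := Subtype.ext (map_zero (transFrob Fr))
  map_add' φ ψ := Subtype.ext (map_add (transFrob Fr) φ.1 ψ.1)

@[simp] theorem esFrob_apply (φ : esSubmodule Fr t ℓ) (T : HeckeAlg) :
    (esFrob Fr t ℓ φ).1.toHom T = Fr (φ.1.toHom T) := rfl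

/-- the Eichler–Shimura relation holds on the whole submodule -/
theorem esFrob_relation (φ : esSubmodule Fr t ℓ) :
    esFrob Fr t ℓ (esFrob Fr t ℓ φ) - t • esFrob Fr t ℓ φ + ℓ • φ = 0 := by
  apply Subtype.ext
  apply Trans.ext
  intro T
  have h := φ.2 T
  rw [esDefect_apply] at h
  show (esFrob Fr t ℓ (esFrob Fr t ℓ φ)).1.toHom T - (t • (esFrob Fr t ℓ φ).1).toHom T
      + ℓ • φ.1.toHom T = 0
  rw [esFrob_apply, esFrob_apply, Trans.toHom_smul, esFrob_apply]
  exact h

end Construction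

section Main

variable {K L : Type*} [Field K] [Field L] [Algebra K L]
variable (p : ℕ) (J : Type*) [AddCommGroup J] [Module HeckeAlg J]
  [DistribMulAction (L ≃ₐ[K] L) J] [SMulCommClass (L ≃ₐ[K] L) HeckeAlg J]

variable {J} in
/-- `sp x = (T ↦ sp0 (T • x))` -/
def spHom {Jk : Type} [AddCommGroup Jk] (sp0 : J →+ Jk) : J →+ Trans Jk where
  toFun x := Trans.ofHom
    { toFun := fun T => sp0 (T • x)
      map_zero' := by rw [zero_smul, map_zero]
      map_add' := fun T T' => by rw [add_smul, map_add] }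
  map_zero' := by
    apply Trans.ext
    intro T
    show sp0 (T • (0 : J)) = 0
    rw [smul_zero, map_zero]
  map_add' x y := by
    apply Trans.ext
    intro T
    show sp0 (T • (x + y)) = sp0 (T • x) + sp0 (T • y)
    rw [smul_add, map_add]

variable {J} in
@[simp] theorem spHom_apply {Jk : Type} [AddCommGroup Jk] (sp0 : J →+ Jk) (x : J) (T : HeckeAlg) :
    (spHom sp0 x).toHom T = sp0 (T • x) := rfl

/-- **Formal glue for S37.**  The data `(sp0, Fr)` with injectivity on `p`-power torsion, inertia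
invariance, Frobenius compatibility and the Eichler–Shimura relation give
`IsSpecialization` + `SpecialFibreRelation` for suitable `(J', sp, F)`. -/
theorem exists_specialization (A : ValuationSubring L) (ℓ : ℕ) (hℓ : ℓ.Prime)
    {Jk : Type} [AddCommGroup Jk] (sp0 : J →+ Jk) (Fr : Jk →+ Jk)
    (hinj : ∀ x : J, (∃ n : ℕ, p ^ n • x = 0) → sp0 x = 0 → x = 0)
    (hinert : ∀ σ ∈ A.inertiaSubgroupIn K, ∀ x : J, sp0 (σ • x) = sp0 x)
    (hfrob : ∀ σ : L ≃ₐ[K] L, A.IsFrobeniusAt σ ℓ → ∀ x : J, sp0 (σ • x) = Fr (sp0 x))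
    (hES : ∀ w : J, Fr (sp0 (heckeGen ⟨ℓ, hℓ⟩ • w)) = Fr (Fr (sp0 w)) + ℓ • sp0 w) :
    ∃ (J' : Type) (_ : AddCommGroup J') (_ : Module HeckeAlg J') (sp : J →+ J')
      (F : J' →+ J'),
      IsSpecialization (K := K) p J J' A ℓ sp F ∧ SpecialFibreRelation J' ℓ hℓ F := by
  have hmem : ∀ x : J, spHom sp0 x ∈ esSubmodule Fr (heckeGen ⟨ℓ, hℓ⟩) ℓ := by
    intro x T
    rw [esDefect_apply]
    simp only [spHom_apply]
    rw [mul_comm T, mul_smul, hES (T • x)]
    abel
  refine ⟨esSubmodule Fr (heckeGen ⟨ℓ, hℓ⟩) ℓ, inferInstance, inferInstance,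
    (spHom sp0).codRestrict (esSubmodule Fr (heckeGen ⟨ℓ, hℓ⟩) ℓ).toAddSubgroup hmem,
    esFrob Fr (heckeGen ⟨ℓ, hℓ⟩) ℓ, ⟨?_, ?_, ?_, ?_⟩, ?_⟩
  · -- hecke_comm
    intro T x
    apply Subtype.ext
    apply Trans.ext
    intro T'
    show sp0 (T' • T • x) = sp0 ((T' * T) • x)
    rw [mul_smul]
  · -- inertia_comm
    intro σ hσ x
    apply Subtype.ext
    apply Trans.ext
    intro T
    show sp0 (T • σ • x) = sp0 (T • x)
    rw [← smul_comm σ T x, hinert σ hσ]
  · -- frobenius_comm
    intro σ hσ x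
    apply Subtype.ext
    apply Trans.ext
    intro T
    show sp0 (T • σ • x) = Fr (sp0 (T • x))
    rw [← smul_comm σ T x, hfrob σ hσ]
  · -- injective_torsion
    intro x hx h0
    apply hinj x hx
    have h1 := congrArg (fun φ => (φ : Trans Jk).toHom 1) (congrArg Subtype.val h0)
    simpa using h1
  · -- SpecialFibreRelation
    intro y
    exact esFrob_relation Fr (heckeGen ⟨ℓ, hℓ⟩) ℓ y

end Main

end Fermat.Agent.S37lib.Glue
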