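/-
S37lib / Glue / Assemble  (lead)

S37 (`ModularCurve.SpecializationExists` for `JZero N`) from three named inputs at every prime
`ℓ ∤ N p` and every place `A` over `ℓ`:
* `ReductionInputsModL A N` (unconditional good reduction: block (B)),
* equivariance of `reductionModL A N` under inertia / Frobenius elements (blocks (B3), (C0)),
* the Eichler–Shimura relation for `T_ℓ` on `Pic⁰` (block (C)),
using S18 (injectivity of the reduction on prime-to-`ℓ` torsion) and the formal glue `Glue/Formal`.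
-/
import Fermat.Statements.S37
import Fermat.Agent.S18
import Fermat.Agent.S37lib.Glue.Formal

set_option autoImplicit false

noncomputable section

namespace Fermat.Agent.S37lib.Glue

open ModularCurve

local notation "Qb" => AlgebraicClosure ℚ

/-- the three inputs of S37 at a place `A` over `ℓ` -/
structure Inputs (N : ℕ) [NeZero N] (ℓ : ℕ) (hℓ : ℓ.Prime)
    (A : ValuationSubring Qb) : Prop where
  red : ReductionInputsModL A N
  exists_frob : ∃ Fr : JZeroC (IsLocalRing.ResidueField A) N →+ JZeroC (IsLocalRing.ResidueField A) N,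
    (∀ σ ∈ A.inertiaSubgroupIn ℚ, ∀ x : JZero N,
      reductionModL A N (σ • x) = reductionModL A N x) ∧
    (∀ σ : Qb ≃ₐ[ℚ] Qb, A.IsFrobeniusAt σ ℓ → ∀ x : JZero N,
      reductionModL A N (σ • x) = Fr (reductionModL A N x)) ∧
    (∀ w : JZero N, Fr (reductionModL A N (heckeOperatorBar N ⟨ℓ, hℓ⟩ w)) =
      Fr (Fr (reductionModL A N w)) + ℓ • reductionModL A N w)

/-- **S37 from the inputs** -/
theorem result_of_inputs (N p : ℕ) [NeZero N] (hcomm : HeckeOperatorsCommuteBar N)
    (H : ∀ (ℓ : ℕ) (hℓ : ℓ.Prime), ¬ ℓ ∣ N * p → ∀ A : ValuationSubring Qb,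
      A.LiesOverPrime ℓ → Inputs N ℓ hℓ A) :
    letI := heckeModuleBar N
    ∀ (_ : SMulCommClass (Qb ≃ₐ[ℚ] Qb) HeckeAlg (JZero N)),
      SpecializationExists (K := ℚ) (L := Qb) N p (JZero N) := by
  letI := heckeModuleBar N
  intro _ ℓ hℓ hℓNp A hA
  obtain ⟨hred, Fr, hinert, hfrob, hES⟩ := H ℓ hℓ hℓNp A hA
  haveI : Fact ℓ.Prime := ⟨hℓ⟩
  have hℓN : ¬ ℓ ∣ N := fun h => hℓNp (Dvd.dvd.mul_right h p)
  have hℓp : ¬ ℓ ∣ p := fun h => hℓNp (Dvd.dvd.mul_left h N)
  refine exists_specialization (K := ℚ) p (JZero N) A ℓ hℓ (reductionModL A N) Fr ?_ hinert hfrob ?_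
  · rintro x ⟨n, hn⟩ hx
    exact Fermat.Agent.S18.result N hℓN A hA hred (p ^ n)
      (fun h => hℓp (hℓ.dvd_of_dvd_pow h)) x hn hx
  · intro w
    rw [heckeModuleBar_heckeGen_smul hcomm]
    exact hES w

end Fermat.Agent.S37lib.Glue
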